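import Mathlib
import Fermat.Agent.Basic.PowerSeriesRegular

/-!
# Power series rings over a field are factorial

Induction on the number of variables: after a triangular change of variables a given series is
regular in the first variable, and Weierstrass preparation reduces to polynomials.
-/

set_option autoImplicit false
set_option linter.style.haveILetI false

noncomputable section

universe u

open IsLocalRing

namespace FermatLib.AV.Tors.PSUFD

variable {K : Type u} [Field K] {n : ℕ}

theorem maximalIdeal_eq_span_X :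
    maximalIdeal (MvPowerSeries (Fin n) K) =
      Ideal.span (Set.range (MvPowerSeries.X : Fin n → MvPowerSeries (Fin n) K)) := by
  classical
  ext f
  rw [IsLocalRing.mem_maximalIdeal, mem_nonunits_iff, MvPowerSeries.isUnit_iff_constantCoeff,
    isUnit_iff_ne_zero, not_not, ← Set.image_univ, ← Finset.coe_univ,
    FermatLib.Basic.mvPowerSeries_mem_span_X_iff, ← MvPowerSeries.coeff_zero_eq_constantCoeff_apply]
  refine ⟨fun h m hm => ?_, fun h => h 0 fun _ _ => rfl⟩
  obtain rfl : m = 0 := Finsupp.ext fun j => hm j (Finset.mem_univ j)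
  exact h

instance : IsAdicComplete (maximalIdeal (MvPowerSeries (Fin n) K)) (MvPowerSeries (Fin n) K) := by
  rw [maximalIdeal_eq_span_X]
  infer_instance

section Subst

open MvPowerSeries

/-- Triangular change of variables `X_i ↦ X_i + ε X_0 ^ w_i`. -/
def shear (ε : K) (w : Fin n → ℕ) : Fin (n + 1) → MvPowerSeries (Fin (n + 1)) K :=
  Fin.cons (X 0) fun i => X i.succ + C ε * X 0 ^ (w i + 1)

theorem shear_zero (ε : K) (w : Fin n → ℕ) : shear ε w 0 = X 0 := rfl

theorem shear_succ (ε : K) (w : Fin n → ℕ) (i : Fin n) :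
    shear ε w i.succ = X i.succ + C ε * X 0 ^ (w i + 1) := by simp [shear]

theorem hasSubst_shear (ε : K) (w : Fin n → ℕ) : HasSubst (shear ε w) :=
  hasSubst_of_constantCoeff_zero fun i => by
    refine Fin.cases ?_ (fun j => ?_) i <;> simp [shear]

theorem subst_shear (ε : K) (w : Fin n → ℕ) (f : MvPowerSeries (Fin (n + 1)) K) :
    subst (shear (-ε) w) (subst (shear ε w) f) = f := by
  rw [subst_comp_subst_apply (hasSubst_shear ε w) (hasSubst_shear (-ε) w)]
  have : (fun s => subst (shear (-ε) w) (shear ε w s)) =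
      (X : Fin (n + 1) → MvPowerSeries (Fin (n + 1)) K) := by
    funext s
    have ha := hasSubst_shear (-ε) w
    refine Fin.cases ?_ (fun j => ?_) s
    · rw [shear_zero, subst_X ha, shear_zero]
    · simp only [shear_succ, subst_add ha, subst_mul ha, subst_pow ha, subst_X ha, shear_zero,
        subst_C]
      simp
  rw [this, subst_self]
  rfl

/-- The change of variables as a ring automorphism. -/
def shearEquiv (w : Fin n → ℕ) :
    MvPowerSeries (Fin (n + 1)) K ≃+* MvPowerSeries (Fin (n + 1)) K :=
  { (substAlgHom (R := K) (hasSubst_shear (1 : K) w)).toRingHom with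
    invFun := subst (shear (-1 : K) w)
    left_inv := fun f => by
      change subst _ (substAlgHom (R := K) (hasSubst_shear (1 : K) w) f) = f
      rw [coe_substAlgHom]
      exact subst_shear (1 : K) w f
    right_inv := fun f => by
      change substAlgHom (R := K) (hasSubst_shear (1 : K) w) (subst _ f) = f
      rw [coe_substAlgHom]
      simpa using subst_shear (-1 : K) w f }

theorem shearEquiv_apply (w : Fin n → ℕ) (f : MvPowerSeries (Fin (n + 1)) K) :
    shearEquiv w f = subst (shear (1 : K) w) f := by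
  change substAlgHom (R := K) (hasSubst_shear (1 : K) w) f = _
  rw [coe_substAlgHom]

/-- Restriction to the first axis. -/
def axis : Fin (n + 1) → MvPowerSeries Unit K := Fin.cons (X ()) fun _ => 0

theorem hasSubst_axis : HasSubst (axis (K := K) (n := n)) :=
  hasSubst_of_constantCoeff_zero fun i => by
    refine Fin.cases ?_ (fun j => ?_) i <;> simp [axis]

theorem prod_axis_pow (d : Fin (n + 1) →₀ ℕ) :
    (d.prod fun s e => axis (K := K) s ^ e) =
      if d = Finsupp.cons (d 0) 0 then (X () : MvPowerSeries Unit K) ^ d 0 else 0 := by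
  classical
  rw [Finsupp.prod_fintype _ _ (fun i => pow_zero _), Fin.prod_univ_succ]
  simp only [axis, Fin.cons_zero, Fin.cons_succ]
  split_ifs with h
  · rw [Finset.prod_eq_one, mul_one]
    intro i _
    have : d i.succ = 0 := by rw [h]; simp
    simp [this]
  · obtain ⟨i, hi⟩ : ∃ i : Fin n, d i.succ ≠ 0 := by
      by_contra! hc
      exact h (Finsupp.ext fun j => by refine Fin.cases ?_ (fun i => ?_) j <;> simp [hc])
    rw [Finset.prod_eq_zero (Finset.mem_univ i) (zero_pow hi), mul_zero]

theorem coeff_subst_axis (f : MvPowerSeries (Fin (n + 1)) K) (k : ℕ) :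
    coeff (Finsupp.single () k) (subst axis f) = coeff (Finsupp.cons k 0) f := by
  classical
  rw [coeff_subst hasSubst_axis, finsum_eq_single _ (Finsupp.cons k 0)]
  · rw [prod_axis_pow, Finsupp.cons_zero, if_pos rfl, coeff_X_pow, if_pos rfl, smul_eq_mul,
      mul_one]
  · intro d hd
    rw [prod_axis_pow]
    split_ifs with h
    · rw [coeff_X_pow, if_neg fun he => hd ?_, smul_zero]
      rw [h, show d 0 = k from (Finsupp.single_injective () he).symm]
    · simp

theorem subst_axis_shear (w : Fin n → ℕ) (f : MvPowerSeries (Fin (n + 1)) K) :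
    subst axis (subst (shear (1 : K) w) f) =
      subst (Fin.cons (X ()) fun i => (X () : MvPowerSeries Unit K) ^ (w i + 1)) f := by
  rw [subst_comp_subst_apply (hasSubst_shear (1 : K) w) hasSubst_axis]
  congr 1
  funext s
  have ha := hasSubst_axis (K := K) (n := n)
  refine Fin.cases ?_ (fun j => ?_) s
  · rw [shear_zero, subst_X ha]
    simp [axis]
  · rw [shear_succ, map_one (C (σ := Fin (n + 1)) (R := K)), one_mul, subst_add ha, subst_pow ha,
      subst_X ha, subst_X ha]
    simp [axis]

/-- Weight separating exponents whose entries are smaller than `M`. -/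
def weight (M : ℕ) (d : Fin (n + 1) → ℕ) : ℕ := ∑ i : Fin (n + 1), d i * M ^ (i : ℕ)

theorem sum_low_lt {M : ℕ} {d : Fin (n + 1) → ℕ} (hd : ∀ i, d i < M) (j : ℕ) :
    ∑ i ∈ Finset.univ.filter (fun i : Fin (n + 1) => (i : ℕ) < j), d i * M ^ (i : ℕ) < M ^ j := by
  induction j with
  | zero => simp
  | succ j ih =>
    have hsub : Finset.univ.filter (fun i : Fin (n + 1) => (i : ℕ) < j) ⊆
        Finset.univ.filter (fun i : Fin (n + 1) => (i : ℕ) < j + 1) := by
      intro i hi; simp at hi ⊢; omega
    by_cases hj : j < n + 1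
    · rw [show Finset.univ.filter (fun i : Fin (n + 1) => (i : ℕ) < j + 1) =
          insert ⟨j, hj⟩ (Finset.univ.filter fun i : Fin (n + 1) => (i : ℕ) < j) by
            ext i; simp [Fin.ext_iff]; omega,
        Finset.sum_insert (by simp)]
      have h2 : (d ⟨j, hj⟩ + 1) * M ^ j ≤ M * M ^ j := Nat.mul_le_mul_right _ (hd _)
      rw [add_mul, one_mul] at h2
      rw [pow_succ']
      simp only at ih ⊢
      omega
    · rw [show Finset.univ.filter (fun i : Fin (n + 1) => (i : ℕ) < j + 1) =
          Finset.univ.filter (fun i : Fin (n + 1) => (i : ℕ) < j) by ext i; simp; omega]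
      refine ih.trans_le (Nat.pow_le_pow_right (Nat.zero_lt_of_lt (hd 0)) (Nat.le_succ j))

theorem exists_regular {f : MvPowerSeries (Fin (n + 1)) K} (hf : f ≠ 0) :
    ∃ (w : Fin n → ℕ) (k : ℕ), coeff (Finsupp.cons k 0) (shearEquiv w f) ≠ 0 := by
  classical
  obtain ⟨m₀, hm₀⟩ : ∃ m, coeff m f ≠ 0 := by
    by_contra! h
    exact hf (MvPowerSeries.ext fun m => by simp [h m])
  -- a support element minimal for the colexicographic order
  let key : (Fin (n + 1) →₀ ℕ) → Colex (Fin (n + 1) → ℕ) := fun d => toColex ⇑d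
  obtain ⟨-, ⟨m, hm, rfl⟩, hmin⟩ := wellFounded_lt.has_min (key '' {d | coeff d f ≠ 0})
    ⟨_, m₀, hm₀, rfl⟩
  let M := (∑ i, m i) + 1
  have hM : 0 < M := Nat.succ_pos _
  have hmlt : ∀ i, m i < M := fun i =>
    Nat.lt_succ_of_le (Finset.single_le_sum (fun j _ => Nat.zero_le _) (Finset.mem_univ i))
  -- heavier exponents
  have hlt : ∀ d, coeff d f ≠ 0 → d ≠ m → weight M m < weight M d := by
    intro d hd hdm
    have hne : key m < key d := by
      refine lt_of_le_of_ne (not_lt.mp (hmin _ ⟨d, hd, rfl⟩)) fun h => hdm ?_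
      exact Finsupp.ext fun i => congrFun (toColex.injective h).symm i
    obtain ⟨j, hj, hjlt⟩ := hne
    simp only [key] at hj hjlt
    simp only [weight]
    rw [← Finset.sum_filter_add_sum_filter_not Finset.univ (fun i => j < i),
      ← Finset.sum_filter_add_sum_filter_not Finset.univ (fun i => j < i)]
    refine add_lt_add_of_le_of_lt (le_of_eq (Finset.sum_congr rfl fun i hi => ?_)) ?_
    · rw [show m i = d i from hj i (Finset.mem_filter.mp hi).2]
    · have h1 : ∀ e : Fin (n + 1) → ℕ, (∑ i ∈ Finset.univ.filter (fun i => ¬ j < i),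
          e i * M ^ (i : ℕ)) = (∑ i ∈ Finset.univ.filter (fun i => i < j), e i * M ^ (i : ℕ)) +
            e j * M ^ (j : ℕ) := fun e => by
        rw [show Finset.univ.filter (fun i => ¬ j < i) =
          insert j (Finset.univ.filter fun i => i < j) by
            ext i; simp [le_iff_eq_or_lt],
          Finset.sum_insert (by simp), add_comm]
      rw [h1, h1]
      have hlow : (∑ i ∈ Finset.univ.filter (fun i => i < j), m i * M ^ (i : ℕ)) <
          M ^ (j : ℕ) := sum_low_lt hmlt (j : ℕ)
      have h2 : (m j + 1) * M ^ (j : ℕ) ≤ d j * M ^ (j : ℕ) := Nat.mul_le_mul_right _ hjlt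
      rw [add_mul, one_mul] at h2
      omega
  refine ⟨fun i => M ^ ((i : ℕ) + 1) - 1, weight M m, ?_⟩
  rw [shearEquiv_apply, ← coeff_subst_axis, subst_axis_shear]
  set a : Fin (n + 1) → MvPowerSeries Unit K :=
    Fin.cons (X ()) fun i => (X () : MvPowerSeries Unit K) ^ (M ^ ((i : ℕ) + 1) - 1 + 1) with ha
  have hw : ∀ i : Fin n, M ^ ((i : ℕ) + 1) - 1 + 1 = M ^ ((i : ℕ) + 1) := fun i =>
    Nat.sub_add_cancel (Nat.one_le_pow _ _ hM)
  have hasa : HasSubst a := hasSubst_of_constantCoeff_zero fun i => by
    refine Fin.cases ?_ (fun j => ?_) i <;> simp [ha]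
  have hprod : ∀ d : Fin (n + 1) →₀ ℕ, (d.prod fun s e => a s ^ e) = X () ^ weight M d := by
    intro d
    rw [Finsupp.prod_fintype _ _ (fun i => pow_zero _)]
    rw [show (∏ i, a i ^ d i) = ∏ i : Fin (n + 1), (X () : MvPowerSeries Unit K) ^ (d i * M ^ (i : ℕ))
      from Finset.prod_congr rfl fun i _ => ?_, Finset.prod_pow_eq_pow_sum]
    · rfl
    refine Fin.cases ?_ (fun j => ?_) i
    · simp [ha]
    · simp [ha, hw, ← pow_mul, mul_comm]
  rw [coeff_subst hasa, finsum_eq_single _ m]
  · simpa [hprod, coeff_X_pow] using hm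
  · intro d hd
    by_cases h0 : coeff d f = 0
    · simp [h0]
    rw [hprod, coeff_X_pow, if_neg fun he => (hlt d h0 hd).ne (Finsupp.single_injective () he),
      smul_zero]

end Subst

section Prime

open Polynomial

variable {A : Type u} [CommRing A] [IsDomain A] [IsLocalRing A] [UniqueFactorizationMonoid A]
  [IsAdicComplete (maximalIdeal A) A]

/-- A prime of `A⟦T⟧` with a series regular in `T` contains a prime element. -/
theorem exists_prime_mem_of_regular (P : Ideal (PowerSeries A)) [P.IsPrime] {f : PowerSeries A}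
    (hfP : f ∈ P) (hf : f.map (residue A) ≠ 0) : ∃ x ∈ P, Prime x := by
  classical
  obtain ⟨h, u, H⟩ := PowerSeries.exists_isWeierstrassFactorization hf
  have hh : (h : PowerSeries A) ∈ P :=
    (Ideal.mul_unit_mem_iff_mem P H.isUnit).mp (H.eq_mul ▸ hfP)
  let P' := P.comap (Polynomial.coeToPowerSeries.ringHom : A[X] →+* PowerSeries A)
  have hh' : h ∈ P' := hh
  haveI : P'.IsPrime := Ideal.IsPrime.comap _
  have hh0 : h ≠ 0 := H.isDistinguishedAt.monic.ne_zero
  obtain ⟨s, hs, hs'⟩ := UniqueFactorizationMonoid.exists_prime_factors h hh0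
  obtain ⟨q, hqs, hqP⟩ : ∃ q ∈ s, q ∈ P' :=
    (‹P'.IsPrime›.multiset_prod_mem_iff_exists_mem s).mp (by
      obtain ⟨v, hv⟩ := hs'
      refine (Ideal.mul_unit_mem_iff_mem P' v.isUnit).mp ?_
      rw [hv]; exact hh')
  obtain ⟨c, hc⟩ : q ∣ h := (Multiset.dvd_prod hqs).trans hs'.dvd
  have hlc : IsUnit q.leadingCoeff := IsUnit.of_mul_eq_one c.leadingCoeff (by
    rw [← leadingCoeff_mul, ← hc]; exact H.isDistinguishedAt.monic)
  let q' : A[X] := C (↑hlc.unit⁻¹ : A) * q
  have hq'm : q'.Monic := by
    rw [Monic, leadingCoeff_mul, leadingCoeff_C]; exact hlc.val_inv_mul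
  have hq'prime : Prime q' :=
    (show Associated q q' from ⟨Units.map (C : A →+* A[X]).toMonoidHom hlc.unit⁻¹,
      mul_comm _ _⟩).prime (hs q hqs)
  have hq'P : q' ∈ P' := Ideal.mul_mem_left _ _ hqP
  have hdvd : q' ∣ h := ⟨C (hlc.unit : A) * c, by
    rw [hc]; simp only [q']
    rw [mul_mul_mul_comm, ← C_mul, Units.inv_mul, C_1, one_mul]⟩
  have hdist : q'.IsDistinguishedAt (maximalIdeal A) := by
    refine ⟨⟨fun {i} hi => ?_⟩, hq'm⟩
    have hmap : q'.map (residue A) ∣ X ^ h.natDegree := by
      have := Polynomial.map_dvd (residue A) hdvd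
      rwa [show h.map (residue A) = X ^ h.natDegree from H.isDistinguishedAt.map_eq_X_pow] at this
    obtain ⟨e, -, he⟩ := (dvd_prime_pow prime_X _).mp hmap
    have heq : q'.map (residue A) = X ^ e :=
      eq_of_monic_of_associated (hq'm.map _) (monic_X_pow e) he
    have hdeg : e = q'.natDegree := by
      rw [← natDegree_X_pow (R := ResidueField A) e, ← heq, hq'm.natDegree_map]
    have := congrArg (fun p => p.coeff i) heq
    simp only [coeff_map, coeff_X_pow] at this
    rw [if_neg (by omega)] at this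
    exact (residue_eq_zero_iff _).mp this
  refine ⟨(q' : PowerSeries A), hq'P, ?_⟩
  have hne : (q' : PowerSeries A) ≠ 0 := by
    simpa using (Polynomial.coe_injective A).ne hq'm.ne_zero
  refine (Ideal.span_singleton_prime hne).mp ?_
  haveI : (Ideal.span {q'}).IsPrime := (Ideal.span_singleton_prime hq'm.ne_zero).mpr hq'prime
  haveI : IsDomain (PowerSeries A ⧸ Ideal.span {(q' : PowerSeries A)}) :=
    hdist.algEquivQuotient.symm.toMulEquiv.isDomain _
  exact (Ideal.Quotient.isDomain_iff_prime _).mp inferInstance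

end Prime

variable (K) in
theorem uniqueFactorizationMonoid : ∀ n : ℕ, UniqueFactorizationMonoid (MvPowerSeries (Fin n) K)
  | 0 => (MvPowerSeries.isEmptyEquiv (Fin 0) K).symm.toMulEquiv.uniqueFactorizationMonoid
      inferInstance
  | n + 1 => by
    haveI := uniqueFactorizationMonoid n
    haveI : IsDomain (MvPowerSeries (Fin (n + 1)) K) := NoZeroDivisors.to_isDomain _
    haveI : IsDomain (MvPowerSeries (Fin n) K) := NoZeroDivisors.to_isDomain _
    refine UniqueFactorizationMonoid.iff_exists_prime_mem_of_isPrime.mpr fun P hP0 hP => ?_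
    haveI := hP
    obtain ⟨f, hfP, hf⟩ := Submodule.exists_mem_ne_zero_of_ne_bot hP0
    obtain ⟨w, k, hk⟩ := exists_regular hf
    let e : MvPowerSeries (Fin (n + 1)) K ≃+* PowerSeries (MvPowerSeries (Fin n) K) :=
      (shearEquiv w).trans (MvPowerSeries.finSuccEquiv K n).toRingEquiv
    haveI : (P.comap e.symm.toRingHom).IsPrime := Ideal.IsPrime.comap _
    have hreg : (e f).map (residue (MvPowerSeries (Fin n) K)) ≠ 0 := by
      intro h
      have h1 : PowerSeries.coeff k (e f) ∈ maximalIdeal (MvPowerSeries (Fin n) K) := by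
        rw [← residue_eq_zero_iff, ← PowerSeries.coeff_map, h, map_zero]
      rw [IsLocalRing.mem_maximalIdeal, mem_nonunits_iff,
        MvPowerSeries.isUnit_iff_constantCoeff, isUnit_iff_ne_zero, not_not,
        ← MvPowerSeries.coeff_zero_eq_constantCoeff_apply] at h1
      refine hk ?_
      rw [← h1]
      exact (MvPowerSeries.coeff_coeff_finSuccEquiv (R := K) (shearEquiv w f) (k := k) (x := 0)).symm
    obtain ⟨x, hxP, hx⟩ := exists_prime_mem_of_regular (P.comap e.symm.toRingHom)
      (f := e f) (by simpa using hfP) hreg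
    exact ⟨e.symm x, hxP, (MulEquiv.prime_iff e.symm.toMulEquiv).mpr hx⟩

end FermatLib.AV.Tors.PSUFD
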