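import Mathlib
import Fermat.Agent.AV.Tors.Alg.PowerSeriesUFD

/-!
# Local rings étale over polynomial rings are factorial

A local ring with flat coordinates has the jets of a polynomial ring, hence its completion is a
power series ring; factoriality descends along the faithfully flat completion map.
-/

set_option autoImplicit false
set_option linter.style.haveILetI false

noncomputable section

universe u

open IsLocalRing MvPolynomial

namespace FermatLib.AV.Tors

section Descent

/-- A noetherian domain with a faithfully flat factorial local extension is factorial. -/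
theorem uniqueFactorizationMonoid_of_faithfullyFlat {O S : Type u} [CommRing O] [IsDomain O]
    [IsNoetherianRing O] [CommRing S] [IsDomain S] [IsLocalRing S] [UniqueFactorizationMonoid S]
    [Algebra O S] [Module.FaithfullyFlat O S] : UniqueFactorizationMonoid O := by
  classical
  letI := UniqueFactorizationMonoid.toGCDMonoid S
  have hinj : Function.Injective (algebraMap O S) := FaithfulSMul.algebraMap_injective O S
  have key : ∀ a b : O, ∃ c : O, ∀ d : O, a ∣ d ∧ b ∣ d ↔ c ∣ d := by
    intro a b
    by_cases ha : a = 0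
    · exact ⟨0, fun d => ⟨fun h => ha ▸ h.1, fun h => by simp [zero_dvd_iff.mp h]⟩⟩
    by_cases hb : b = 0
    · exact ⟨0, fun d => ⟨fun h => hb ▸ h.2, fun h => by simp [zero_dvd_iff.mp h]⟩⟩
    let I : Ideal O := Ideal.span {a} ⊓ Ideal.span {b}
    let A := algebraMap O S a
    let B := algebraMap O S b
    let c := lcm A B
    have hc0 : c ≠ 0 := fun h => by
      rcases lcm_eq_zero_iff A B |>.mp h with h | h
      · exact ha (hinj (h.trans (map_zero _).symm))
      · exact hb (hinj (h.trans (map_zero _).symm))
    have hmem : c ∈ I.map (algebraMap O S) := by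
      obtain ⟨s₁, hs₁⟩ : A ∣ c := dvd_lcm_left A B
      obtain ⟨s₂, hs₂⟩ : B ∣ c := dvd_lcm_right A B
      have hrel : ∑ i, ![a, -b] i • ![s₁, s₂] i = 0 := by
        simp [Fin.sum_univ_two, Algebra.smul_def]
        rw [← hs₁, ← hs₂, add_neg_cancel]
      obtain ⟨k, u, y, huy, hu⟩ :=
        Module.Flat.isTrivialRelation_of_sum_smul_eq_zero (R := O) (M := S)
          (f := ![a, -b]) (x := ![s₁, s₂]) hrel
      rw [hs₁, show s₁ = _ from huy 0, Finset.mul_sum]
      refine Submodule.sum_mem _ fun j _ => ?_
      rw [Algebra.smul_def, ← mul_assoc, ← map_mul]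
      refine Ideal.mul_mem_right _ _ (Ideal.mem_map_of_mem _ ⟨?_, ?_⟩)
      · exact Ideal.mul_mem_right _ _ (Ideal.mem_span_singleton_self a)
      · have := hu j
        rw [Fin.sum_univ_two] at this
        have hab : a * u 0 j = b * u 1 j := by
          simp at this
          linear_combination this
        rw [hab]
        exact Ideal.mul_mem_right _ _ (Ideal.mem_span_singleton_self b)
    have hle : ∀ d ∈ I, c ∣ algebraMap O S d := fun d hd =>
      lcm_dvd (map_dvd (algebraMap O S) (Ideal.mem_span_singleton.mp hd.1))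
        (map_dvd (algebraMap O S) (Ideal.mem_span_singleton.mp hd.2))
    obtain ⟨s, hs⟩ := IsNoetherian.noetherian I
    have hgen : ∀ e ∈ s, ∃ r, algebraMap O S e = c * r := fun e he =>
      hle e (hs ▸ Submodule.subset_span he)
    choose r hr using hgen
    obtain ⟨e, he, hu⟩ : ∃ e, ∃ he : e ∈ s, IsUnit (r e he) := by
      by_contra! hnu
      have hsub : I.map (algebraMap O S) ≤ Ideal.span {c} * maximalIdeal S := by
        rw [← hs, show (Submodule.span O (s : Set O) : Ideal O) = Ideal.span (s : Set O) from rfl,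
          Ideal.map_span, Ideal.span_le]
        rintro _ ⟨e, he, rfl⟩
        rw [hr e he]
        exact Ideal.mul_mem_mul (Ideal.mem_span_singleton_self c) (hnu e he)
      obtain ⟨z, hz, hzc⟩ := Ideal.mem_span_singleton_mul.mp (hsub hmem)
      exact hz (IsUnit.of_mul_eq_one 1 (by
        rw [mul_one]; exact mul_left_cancel₀ hc0 (by rw [hzc, mul_one])))
    refine ⟨e, fun d => ⟨fun h => ?_, fun h => ?_⟩⟩
    · have hd : d ∈ I :=
        ⟨Ideal.mem_span_singleton.mpr h.1, Ideal.mem_span_singleton.mpr h.2⟩
      have : d ∈ ((Ideal.span {e}).map (algebraMap O S)).comap (algebraMap O S) := by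
        rw [Ideal.mem_comap, Ideal.map_span, Set.image_singleton, Ideal.mem_span_singleton, hr e he]
        exact (hu.mul_right_dvd).mpr (hle d hd)
      rw [Ideal.comap_map_eq_self_of_faithfullyFlat] at this
      exact Ideal.mem_span_singleton.mp this
    · have heI : e ∈ I := hs ▸ Submodule.subset_span he
      exact ⟨(Ideal.mem_span_singleton.mp heI.1).trans h,
        (Ideal.mem_span_singleton.mp heI.2).trans h⟩
  letI : GCDMonoid O := gcdMonoidOfExistsLCM key
  infer_instance

end Descent

variable {K O : Type u} [Field K] [CommRing O] [Algebra K O] [IsLocalRing O] [IsNoetherianRing O]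
  {g : ℕ}

/-- `t` is a flat system of coordinates of the local ring `O` with residue field `K`. -/
structure IsCoordinates (t : Fin g → O) : Prop where
  span_eq : Ideal.span (Set.range t) = maximalIdeal O
  residue_surjective : Function.Surjective (algebraMap K (ResidueField O))
  flat : (aeval (R := K) t).toRingHom.Flat

variable {t : Fin g → O}

namespace IsCoordinates

variable (ht : IsCoordinates (K := K) t)
include ht

/-- Shorthand for the ideal of the origin. -/
local notation "J" => idealOfVars (Fin g) K

omit [IsNoetherianRing O] in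
theorem map_pow_idealOfVars (n : ℕ) :
    (J ^ n).map (aeval (R := K) t).toRingHom = maximalIdeal O ^ n := by
  rw [Ideal.map_pow, ← ht.span_eq, idealOfVars, Ideal.map_span]
  congr 2
  rw [← Set.range_comp]
  congr 1
  funext i
  simp

omit ht in
theorem mem_idealOfVars_iff (p : MvPolynomial (Fin g) K) : p ∈ J ↔ constantCoeff p = 0 := by
  classical
  rw [← pow_one J, mem_pow_idealOfVars_iff']
  refine ⟨fun h => h 0 (by simp), fun h d hd => ?_⟩
  rw [show d = 0 from Finsupp.degree_eq_zero_iff d |>.mp (by omega)]
  exact h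

theorem exists_sub_mem_pow (n : ℕ) (x : O) :
    ∃ p : MvPolynomial (Fin g) K, x - aeval t p ∈ maximalIdeal O ^ n := by
  induction n generalizing x with
  | zero => exact ⟨0, by simp⟩
  | succ n ih =>
    obtain ⟨p, hp⟩ := ih x
    suffices h : ∀ y ∈ maximalIdeal O ^ n, ∃ q, y - aeval t q ∈ maximalIdeal O ^ (n + 1) by
      obtain ⟨q, hq⟩ := h _ hp
      exact ⟨p + q, by rwa [map_add, ← sub_sub]⟩
    intro y hy
    rw [← map_pow_idealOfVars ht, Ideal.map, Ideal.span] at hy
    induction hy using Submodule.span_induction with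
    | mem y hy =>
      obtain ⟨q, -, rfl⟩ := hy
      exact ⟨q, by simp⟩
    | zero => exact ⟨0, by simp⟩
    | add y z _ _ h₁ h₂ =>
      obtain ⟨q₁, hq₁⟩ := h₁
      obtain ⟨q₂, hq₂⟩ := h₂
      exact ⟨q₁ + q₂, by rw [map_add, add_sub_add_comm]; exact add_mem hq₁ hq₂⟩
    | smul a y hy h =>
      obtain ⟨q, hq⟩ := h
      obtain ⟨c, hc⟩ := ht.residue_surjective (residue O a)
      have hca : a - algebraMap K O c ∈ maximalIdeal O := by
        rw [← residue_eq_zero_iff, map_sub, sub_eq_zero, ← hc]
        rfl
      have hy' : y ∈ maximalIdeal O ^ n := by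
        rw [← map_pow_idealOfVars ht]; exact hy
      refine ⟨MvPolynomial.C c * q, ?_⟩
      rw [map_mul, aeval_C, smul_eq_mul,
        show a * y - algebraMap K O c * aeval t q =
          (a - algebraMap K O c) * y + algebraMap K O c * (y - aeval t q) by ring]
      exact add_mem (pow_succ' (maximalIdeal O) n ▸ Ideal.mul_mem_mul hca hy')
        (Ideal.mul_mem_left _ _ hq)

theorem mem_pow_of_aeval_mem (n : ℕ) {p : MvPolynomial (Fin g) K}
    (hp : aeval t p ∈ maximalIdeal O ^ n) : p ∈ J ^ n := by
  classical
  let φ : MvPolynomial (Fin g) K →+* O := (aeval (R := K) t).toRingHom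
  haveI hJmax : (J).IsMaximal := by
    rw [show J = RingHom.ker (constantCoeff : MvPolynomial (Fin g) K →+* K) from
      Ideal.ext fun q => (mem_idealOfVars_iff q).trans RingHom.mem_ker.symm]
    exact RingHom.ker_isMaximal_of_surjective _ fun c => ⟨C c, constantCoeff_C _ c⟩
  algebraize [φ]
  haveI : Module.Flat (MvPolynomial (Fin g) K) O := ht.flat
  let R := Localization.AtPrime J
  have hunit : ∀ s : (J).primeCompl, IsUnit (φ s.1) := by
    intro s
    have hs : constantCoeff (s : MvPolynomial (Fin g) K) ≠ 0 := fun h =>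
      s.2 ((mem_idealOfVars_iff _).mpr h)
    by_contra hu
    have h1 : φ (C (constantCoeff (s : MvPolynomial (Fin g) K))) ∈ maximalIdeal O := by
      have h2 : φ ((s : MvPolynomial (Fin g) K) - C (constantCoeff (s : MvPolynomial (Fin g) K)))
          ∈ maximalIdeal O := by
        rw [← pow_one (maximalIdeal O), ← map_pow_idealOfVars ht]
        exact Ideal.mem_map_of_mem _ (by rw [pow_one, mem_idealOfVars_iff]; simp)
      have := sub_mem (show φ s ∈ maximalIdeal O from hu) h2
      rwa [← map_sub, sub_sub_cancel] at this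
    exact h1 ((IsUnit.mk0 _ hs).map (φ.comp C))
  algebraize [(IsLocalization.lift hunit : R →+* O)]
  haveI : IsScalarTower (MvPolynomial (Fin g) K) R O :=
    IsScalarTower.of_algebraMap_eq fun q => by
      simp [RingHom.algebraMap_toAlgebra, R]
  haveI : Module.Flat R O := (Module.flat_iff_of_isLocalization R (J).primeCompl O).mpr inferInstance
  haveI : IsLocalHom (algebraMap R O) := by
    refine ⟨fun z hz => ?_⟩
    obtain ⟨q, s, rfl⟩ := IsLocalization.exists_mk'_eq (J).primeCompl z
    rw [IsLocalization.AtPrime.isUnit_mk'_iff (S := R) J]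
    intro hq
    have h1 : φ q ∈ maximalIdeal O := by
      rw [← pow_one (maximalIdeal O), ← map_pow_idealOfVars ht]
      exact Ideal.mem_map_of_mem _ (by rwa [pow_one])
    apply h1
    rw [show φ q = algebraMap R O (IsLocalization.mk' R q s) * φ s by
      change algebraMap (MvPolynomial (Fin g) K) O q = _
      rw [IsScalarTower.algebraMap_apply (MvPolynomial (Fin g) K) R O,
        ← IsLocalization.mk'_spec R q s, map_mul,
        ← IsScalarTower.algebraMap_apply (MvPolynomial (Fin g) K) R O]
      rfl]
    exact hz.mul (hunit s)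
  haveI : Module.FaithfullyFlat R O := Module.FaithfullyFlat.of_flat_of_isLocalHom
  have hmem : algebraMap (MvPolynomial (Fin g) K) R p ∈
      (J ^ n).map (algebraMap (MvPolynomial (Fin g) K) R) := by
    rw [← Ideal.comap_map_eq_self_of_faithfullyFlat (B := O)
      ((J ^ n).map (algebraMap (MvPolynomial (Fin g) K) R)), Ideal.mem_comap, Ideal.map_map,
      ← IsScalarTower.algebraMap_eq, ← IsScalarTower.algebraMap_apply]
    change φ p ∈ (J ^ n).map φ
    rw [map_pow_idealOfVars ht]
    exact hp
  obtain ⟨s, hsJ, hs⟩ := (IsLocalization.algebraMap_mem_map_algebraMap_iff (J).primeCompl R _ _).mp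
    hmem
  suffices h : ∀ k ≤ n, p ∈ J ^ k from h n le_rfl
  intro k
  induction k with
  | zero => intro _; simp
  | succ k ih =>
    intro hk
    have hc : constantCoeff s ≠ 0 := fun h => hsJ ((mem_idealOfVars_iff _).mpr h)
    have h1 : C (constantCoeff s) * p ∈ J ^ (k + 1) := by
      rw [show C (constantCoeff s) * p = s * p - (s - C (constantCoeff s)) * p by ring]
      refine sub_mem (Ideal.pow_le_pow_right hk hs) (pow_succ' J k ▸ Ideal.mul_mem_mul ?_ (ih (by omega)))
      rw [mem_idealOfVars_iff]; simp
    have h2 := Ideal.mul_mem_left _ (C (constantCoeff s)⁻¹) h1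
    rwa [← mul_assoc, ← C_mul, inv_mul_cancel₀ hc, C_1, one_mul] at h2

/-- Jets of `O` are jets of polynomials. -/
def jetEquiv (n : ℕ) :
    (MvPolynomial (Fin g) K ⧸ J ^ n) ≃+* O ⧸ maximalIdeal O ^ n :=
  RingEquiv.ofBijective (Ideal.quotientMap (maximalIdeal O ^ n) (aeval (R := K) t).toRingHom
      (Ideal.map_le_iff_le_comap.mp (map_pow_idealOfVars ht n).le))
    ⟨Ideal.quotientMap_injective' fun p hp => mem_pow_of_aeval_mem ht n hp, fun y => by
      obtain ⟨x, rfl⟩ := Ideal.Quotient.mk_surjective y
      obtain ⟨p, hp⟩ := exists_sub_mem_pow ht n x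
      exact ⟨Ideal.Quotient.mk _ p, (Ideal.Quotient.eq.mpr hp).symm⟩⟩

theorem jetEquiv_mk (n : ℕ) (p : MvPolynomial (Fin g) K) :
    ht.jetEquiv n (Ideal.Quotient.mk _ p) = Ideal.Quotient.mk _ (aeval t p) := rfl

theorem factor_jetEquiv_symm {m n : ℕ} (h : m ≤ n) (x : O) :
    Ideal.Quotient.factor (Ideal.pow_le_pow_right h)
        ((ht.jetEquiv n).symm (Ideal.Quotient.mk _ x)) =
      (ht.jetEquiv m).symm (Ideal.Quotient.mk _ x) := by
  obtain ⟨p, hp⟩ := Ideal.Quotient.mk_surjective ((ht.jetEquiv n).symm (Ideal.Quotient.mk _ x))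
  have hn := (RingEquiv.eq_symm_apply _).mp hp
  rw [jetEquiv_mk, Ideal.Quotient.eq] at hn
  rw [← hp, Ideal.Quotient.factor_mk, RingEquiv.eq_symm_apply, jetEquiv_mk, Ideal.Quotient.eq]
  exact Ideal.pow_le_pow_right h hn

omit ht [IsLocalRing O] [IsNoetherianRing O] in
theorem factor_evalₐ {R : Type u} [CommRing R] (I : Ideal R) {m n : ℕ} (h : m ≤ n)
    (x : AdicCompletion I R) :
    Ideal.Quotient.factor (Ideal.pow_le_pow_right h) (AdicCompletion.evalₐ I n x) =
      AdicCompletion.evalₐ I m x := by
  obtain ⟨a, rfl⟩ := AdicCompletion.mk_surjective I R x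
  rw [AdicCompletion.evalₐ_mk, AdicCompletion.evalₐ_mk, Ideal.Quotient.factor_mk]
  exact AdicCompletion.Ideal.mk_eq_mk I h a

theorem toPoly_compat {m n : ℕ} (h : m ≤ n) :
    (Ideal.Quotient.factorPow J h).comp ((ht.jetEquiv n).symm.toRingHom.comp
        (AdicCompletion.evalₐ (maximalIdeal O) n).toRingHom) =
      (ht.jetEquiv m).symm.toRingHom.comp (AdicCompletion.evalₐ (maximalIdeal O) m).toRingHom :=
  RingHom.ext fun x => by
    obtain ⟨a, ha⟩ := Ideal.Quotient.mk_surjective (AdicCompletion.evalₐ (maximalIdeal O) n x)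
    have := factor_evalₐ (maximalIdeal O) h x
    rw [← ha, Ideal.Quotient.factor_mk] at this
    change Ideal.Quotient.factor (Ideal.pow_le_pow_right h) ((ht.jetEquiv n).symm (AdicCompletion.evalₐ (maximalIdeal O) n x))
      = (ht.jetEquiv m).symm (AdicCompletion.evalₐ (maximalIdeal O) m x)
    rw [← ha, ← this]
    exact factor_jetEquiv_symm ht h a

theorem ofPoly_compat {m n : ℕ} (h : m ≤ n) :
    (Ideal.Quotient.factorPow (maximalIdeal O) h).comp
        ((ht.jetEquiv n).toRingHom.comp (AdicCompletion.evalₐ J n).toRingHom) =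
      (ht.jetEquiv m).toRingHom.comp (AdicCompletion.evalₐ J m).toRingHom :=
  RingHom.ext fun x => by
    obtain ⟨a, ha⟩ := Ideal.Quotient.mk_surjective (AdicCompletion.evalₐ J n x)
    have := factor_evalₐ J h x
    rw [← ha, Ideal.Quotient.factor_mk] at this
    change Ideal.Quotient.factor (Ideal.pow_le_pow_right h) (ht.jetEquiv n (AdicCompletion.evalₐ J n x))
      = ht.jetEquiv m (AdicCompletion.evalₐ J m x)
    rw [← ha, ← this, jetEquiv_mk, jetEquiv_mk, Ideal.Quotient.factor_mk]

/-- The map from the completion of `O` to that of the polynomial ring. -/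
def toPolyCompletion :
    AdicCompletion (maximalIdeal O) O →+* AdicCompletion J (MvPolynomial (Fin g) K) :=
  AdicCompletion.liftRingHom J
    (fun n => (ht.jetEquiv n).symm.toRingHom.comp
      (AdicCompletion.evalₐ (maximalIdeal O) n).toRingHom)
    (toPoly_compat ht)

/-- The map from the completion of the polynomial ring to that of `O`. -/
def ofPolyCompletion :
    AdicCompletion J (MvPolynomial (Fin g) K) →+* AdicCompletion (maximalIdeal O) O :=
  AdicCompletion.liftRingHom (maximalIdeal O)
    (fun n => (ht.jetEquiv n).toRingHom.comp (AdicCompletion.evalₐ J n).toRingHom)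
    (ofPoly_compat ht)

theorem evalₐ_toPolyCompletion (n : ℕ) (x : AdicCompletion (maximalIdeal O) O) :
    AdicCompletion.evalₐ J n (ht.toPolyCompletion x) =
      (ht.jetEquiv n).symm (AdicCompletion.evalₐ (maximalIdeal O) n x) :=
  AdicCompletion.evalₐ_liftRingHom (I := J) _ (toPoly_compat ht) n x

theorem evalₐ_ofPolyCompletion (n : ℕ) (x : AdicCompletion J (MvPolynomial (Fin g) K)) :
    AdicCompletion.evalₐ (maximalIdeal O) n (ht.ofPolyCompletion x) =
      ht.jetEquiv n (AdicCompletion.evalₐ J n x) :=
  AdicCompletion.evalₐ_liftRingHom (I := maximalIdeal O) _ (ofPoly_compat ht) n x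

/-- The completion of `O` is that of the polynomial ring at the origin. -/
def completionEquiv :
    AdicCompletion (maximalIdeal O) O ≃+* AdicCompletion J (MvPolynomial (Fin g) K) :=
  RingEquiv.ofRingHom ht.toPolyCompletion ht.ofPolyCompletion
    (RingHom.ext fun x => AdicCompletion.ext_evalₐ fun n => by
      simp [evalₐ_toPolyCompletion, evalₐ_ofPolyCompletion])
    (RingHom.ext fun x => AdicCompletion.ext_evalₐ fun n => by
      simp [evalₐ_toPolyCompletion, evalₐ_ofPolyCompletion])

/-- The Taylor expansion at the closed point. -/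
def taylor : O →+* MvPowerSeries (Fin g) K :=
  (MvPowerSeries.toAdicCompletionAlgEquiv (Fin g) K).symm.toRingEquiv.toRingHom.comp
    (ht.completionEquiv.toRingHom.comp (algebraMap O (AdicCompletion (maximalIdeal O) O)))

theorem taylor_flat : ht.taylor.Flat := by
  have h1 : (algebraMap O (AdicCompletion (maximalIdeal O) O)).Flat :=
    RingHom.flat_algebraMap_iff.mpr inferInstance
  exact (h1.comp (RingHom.Flat.of_bijective ht.completionEquiv.bijective)).comp
    (RingHom.Flat.of_bijective
      (MvPowerSeries.toAdicCompletionAlgEquiv (Fin g) K).symm.bijective)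

theorem taylor_aeval (p : MvPolynomial (Fin g) K) : ht.taylor (aeval t p) = (p : MvPowerSeries (Fin g) K) := by
  change (MvPowerSeries.toAdicCompletionAlgEquiv (Fin g) K).symm
    (ht.completionEquiv (algebraMap O (AdicCompletion (maximalIdeal O) O) (aeval t p))) = _
  rw [AlgEquiv.symm_apply_eq, MvPowerSeries.toAdicCompletionAlgEquiv_apply,
    MvPowerSeries.toAdicCompletion_coe]
  refine AdicCompletion.ext_evalₐ fun n => ?_
  change AdicCompletion.evalₐ J n (ht.toPolyCompletion _) = _
  rw [evalₐ_toPolyCompletion, RingEquiv.symm_apply_eq, AdicCompletion.algebraMap_apply,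
    Algebra.algebraMap_self, RingHom.id_apply, AdicCompletion.evalₐ_of, AdicCompletion.evalₐ_of,
    jetEquiv_mk]

theorem isLocalHom_taylor : IsLocalHom ht.taylor := by
  refine ⟨fun x hx => ?_⟩
  by_contra hu
  have hx1 : x ∈ (J).map (aeval (R := K) t).toRingHom := by
    rw [← pow_one J, map_pow_idealOfVars ht, pow_one]; exact hu
  have h2 : ht.taylor x ∈ ((J).map (aeval (R := K) t).toRingHom).map ht.taylor :=
    Ideal.mem_map_of_mem _ hx1
  have hle : ((J).map (aeval (R := K) t).toRingHom).map ht.taylor ≤
      maximalIdeal (MvPowerSeries (Fin g) K) := by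
    rw [Ideal.map_map, Ideal.map_le_iff_le_comap]
    intro p hp
    rw [Ideal.mem_comap, IsLocalRing.mem_maximalIdeal, mem_nonunits_iff,
      MvPowerSeries.isUnit_iff_constantCoeff, isUnit_iff_ne_zero, not_not]
    change MvPowerSeries.constantCoeff (ht.taylor (aeval t p)) = 0
    rw [taylor_aeval]
    simpa [← MvPowerSeries.coeff_zero_eq_constantCoeff_apply, MvPolynomial.coeff_coe,
      ← constantCoeff_eq] using (mem_idealOfVars_iff p).mp hp
  exact (hle h2) hx

theorem taylor_injective : Function.Injective ht.taylor := by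
  algebraize [ht.taylor]
  haveI : Module.Flat O (MvPowerSeries (Fin g) K) := ht.taylor_flat
  haveI : IsLocalHom (algebraMap O (MvPowerSeries (Fin g) K)) := ht.isLocalHom_taylor
  haveI : Module.FaithfullyFlat O (MvPowerSeries (Fin g) K) :=
    Module.FaithfullyFlat.of_flat_of_isLocalHom
  exact FaithfulSMul.algebraMap_injective O (MvPowerSeries (Fin g) K)

theorem isDomain : IsDomain O :=
  haveI : IsDomain (MvPowerSeries (Fin g) K) := NoZeroDivisors.to_isDomain _
  (taylor_injective ht).isDomain ht.taylor

theorem uniqueFactorizationMonoid [IsDomain O] : UniqueFactorizationMonoid O := by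
  algebraize [ht.taylor]
  haveI : IsDomain (MvPowerSeries (Fin g) K) := NoZeroDivisors.to_isDomain _
  haveI : Module.Flat O (MvPowerSeries (Fin g) K) := ht.taylor_flat
  haveI : IsLocalHom (algebraMap O (MvPowerSeries (Fin g) K)) := ht.isLocalHom_taylor
  haveI : Module.FaithfullyFlat O (MvPowerSeries (Fin g) K) :=
    Module.FaithfullyFlat.of_flat_of_isLocalHom
  haveI := PSUFD.uniqueFactorizationMonoid K g
  exact uniqueFactorizationMonoid_of_faithfullyFlat (S := MvPowerSeries (Fin g) K)

theorem aeval_injective : Function.Injective (aeval (R := K) t) := fun p q h =>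
  MvPolynomial.coe_injective (σ := Fin g) (R := K) (by rw [← taylor_aeval ht, ← taylor_aeval ht, h])

/-- The jets of order `≤ N` span a space of dimension at most the number of monomials. -/
theorem finite_jets (N : ℕ) :
    Module.Finite K (O ⧸ maximalIdeal O ^ (N + 1)) ∧
      Module.finrank K (O ⧸ maximalIdeal O ^ (N + 1)) ≤ (N + g).choose g := by
  classical
  let T := (Finset.univ : Finset (Fin (g + 1))).finsuppAntidiag N
  let v : T → O ⧸ maximalIdeal O ^ (N + 1) := fun e =>
    Ideal.Quotient.mk _ (aeval t (monomial (Finsupp.tail (e : Fin (g + 1) →₀ ℕ)) (1 : K)))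
  have hspan : Submodule.span K (Set.range v) = ⊤ := by
    rw [eq_top_iff]
    rintro y -
    obtain ⟨x, rfl⟩ := Ideal.Quotient.mk_surjective y
    obtain ⟨p, hp⟩ := exists_sub_mem_pow ht (N + 1) x
    rw [Ideal.Quotient.eq.mpr hp, as_sum p, map_sum, map_sum]
    refine Submodule.sum_mem _ fun d _ => ?_
    by_cases hd : d.degree ≤ N
    · have hmem : Finsupp.cons (N - d.degree) d ∈ T := by
        simp only [T, Finset.mem_finsuppAntidiag, Finset.subset_univ, and_true]
        rw [Fin.sum_univ_succ]
        simp only [Finsupp.cons_zero, Finsupp.cons_succ]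
        rw [← Finsupp.degree_eq_sum]
        omega
      rw [← mul_one (coeff d p), ← C_mul_monomial, map_mul, map_mul, aeval_C,
        show Ideal.Quotient.mk (maximalIdeal O ^ (N + 1)) (algebraMap K O (coeff d p)) =
          algebraMap K _ (coeff d p) from rfl, ← Algebra.smul_def]
      refine Submodule.smul_mem _ _ (Submodule.subset_span ?_)
      exact ⟨⟨_, hmem⟩, by simp [v]⟩
    · rw [Ideal.Quotient.eq_zero_iff_mem.mpr]
      · exact zero_mem _
      rw [← map_pow_idealOfVars ht]
      refine Ideal.mem_map_of_mem _ ((mem_pow_idealOfVars_iff' _ _).mpr fun m hm => ?_)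
      rw [coeff_monomial, if_neg]
      rintro rfl
      omega
  haveI : Module.Finite K (O ⧸ maximalIdeal O ^ (N + 1)) :=
    ⟨hspan ▸ Submodule.fg_span (Set.finite_range v)⟩
  refine ⟨inferInstance, ?_⟩
  calc Module.finrank K (O ⧸ maximalIdeal O ^ (N + 1))
      = (Set.range v).finrank K := by rw [Set.finrank, hspan, finrank_top]
    _ ≤ Fintype.card T := finrank_range_le_card v
    _ = (N + g).choose g := by
        rw [Fintype.card_coe, Finset.card_finsuppAntidiag_nat_eq_choose, Finset.card_univ,
          Fintype.card_fin, show g + 1 + N - 1 = N + g by omega]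
        exact Nat.choose_symm_of_eq_add rfl

end IsCoordinates

/-- In a factorial domain the denominators of finitely many fractions form a principal ideal. -/
theorem exists_denominator_generator {R : Type u} [CommRing R] [IsDomain R]
    [UniqueFactorizationMonoid R] {F : Type u} [Field F] [Algebra R F] [IsFractionRing R F]
    {ι : Type u} [Finite ι] (f : ι → F) :
    ∃ h : R, h ≠ 0 ∧ ∀ a : R,
      (∀ i, algebraMap R F a * f i ∈ (algebraMap R F).range) ↔ h ∣ a := by
  classical
  letI := UniqueFactorizationMonoid.toGCDMonoid R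
  have key : ∀ (x : F) (a : R),
      algebraMap R F a * x ∈ (algebraMap R F).range ↔ (IsFractionRing.den R x : R) ∣ a := by
    intro x a
    have hx : algebraMap R F (IsFractionRing.den R x) * x = algebraMap R F (IsFractionRing.num R x) := by
      conv_lhs => arg 2; rw [← IsFractionRing.mk'_num_den R x]
      exact IsLocalization.mk'_spec' F _ _
    constructor
    · rintro ⟨r, hr⟩
      have : IsFractionRing.num R x * a = (IsFractionRing.den R x : R) * r := by
        apply IsFractionRing.injective R F
        rw [map_mul, map_mul, hr, ← hx]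
        ring
      exact (IsFractionRing.num_den_reduced R x).symm.dvd_of_dvd_mul_left ⟨r, this⟩
    · rintro ⟨c, rfl⟩
      refine ⟨c * IsFractionRing.num R x, ?_⟩
      rw [map_mul, map_mul, ← hx]
      ring
  haveI := Fintype.ofFinite ι
  suffices ∀ s : Finset ι, ∃ h : R, h ≠ 0 ∧ ∀ a : R,
      (∀ i ∈ s, algebraMap R F a * f i ∈ (algebraMap R F).range) ↔ h ∣ a by
    simpa using this Finset.univ
  intro s
  induction s using Finset.induction_on with
  | empty => exact ⟨1, one_ne_zero, by simp⟩
  | @insert i s _ ih =>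
    obtain ⟨h, hh0, hh⟩ := ih
    refine ⟨lcm (IsFractionRing.den R (f i) : R) h, ?_, fun a => ?_⟩
    · exact mt (lcm_eq_zero_iff _ _).mp
        (not_or.mpr ⟨nonZeroDivisors.coe_ne_zero _, hh0⟩)
    · rw [Finset.forall_mem_insert, key, hh, lcm_dvd_iff]

end FermatLib.AV.Tors
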