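import Mathlib

/-!
# Extension of homomorphisms to algebraically closed fields along valuation rings

A partially defined homomorphism `L ⇀ k` is encoded by its graph, a subring of `L × k`.
-/

set_option autoImplicit false
set_option linter.style.haveILetI false

noncomputable section

universe u

open Polynomial

namespace FermatLib.AV.Tors.Spec

variable {L k : Type u} [Field L] [Field k]

/-- A subring of `L × k` which is the graph of a homomorphism. -/
def IsGraph (Γ : Subring (L × k)) : Prop := ∀ z ∈ Γ, z.1 = 0 → z.2 = 0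

theorem IsGraph.eq {Γ : Subring (L × k)} (h : IsGraph Γ) {z w : L × k} (hz : z ∈ Γ) (hw : w ∈ Γ)
    (e : z.1 = w.1) : z = w := by
  refine Prod.ext e (sub_eq_zero.mp ?_)
  exact h (z - w) (sub_mem hz hw) (sub_eq_zero.mpr e)

variable {Γ : Subring (L × k)} (hΓ : Maximal IsGraph Γ)

include hΓ

theorem inv_mem {r : L} {c : k} (h : (r, c) ∈ Γ) (hc : c ≠ 0) : (r⁻¹, c⁻¹) ∈ Γ := by
  have hr : r ≠ 0 := fun hr => hc (hΓ.prop _ h hr)
  let Γ' : Subring (L × k) :=
    { carrier := {z | ∃ n : ℕ, z * (r, c) ^ n ∈ Γ}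
      mul_mem' := by
        rintro z w ⟨n, hn⟩ ⟨m, hm⟩
        refine ⟨n + m, ?_⟩
        rw [pow_add, mul_mul_mul_comm]
        exact mul_mem hn hm
      one_mem' := ⟨0, by simp [one_mem]⟩
      add_mem' := by
        rintro z w ⟨n, hn⟩ ⟨m, hm⟩
        refine ⟨n + m, ?_⟩
        rw [add_mul]
        refine add_mem ?_ ?_
        · rw [pow_add, ← mul_assoc]; exact mul_mem hn (pow_mem h m)
        · rw [add_comm n m, pow_add, ← mul_assoc]; exact mul_mem hm (pow_mem h n)
      zero_mem' := ⟨0, by simp [zero_mem]⟩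
      neg_mem' := by
        rintro z ⟨n, hn⟩
        exact ⟨n, by rw [neg_mul]; exact neg_mem hn⟩ }
  have hle : Γ ≤ Γ' := fun z hz => ⟨0, by simpa using hz⟩
  have hgraph : IsGraph Γ' := by
    rintro z ⟨n, hn⟩ hz
    have := hΓ.prop _ hn (by simp [hz])
    simpa [hc] using this
  refine hΓ.le_of_ge hgraph hle ⟨1, ?_⟩
  rw [pow_one, Prod.mk_mul_mk, inv_mul_cancel₀ hr, inv_mul_cancel₀ hc]
  exact one_mem Γ

/-- The image in `k` of a maximal graph is a subfield. -/
def image : Subfield k :=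
  { Γ.map (RingHom.snd L k) with
    inv_mem' := by
      rintro c ⟨z, hz, rfl⟩
      by_cases hc : z.2 = 0
      · exact ⟨0, Γ.zero_mem, by simp [hc]⟩
      · exact ⟨_, inv_mem hΓ (r := z.1) (c := z.2) hz hc, rfl⟩ }

/-- The projection to the image. -/
def toImage : Γ →+* image hΓ :=
  ((RingHom.snd L k).comp Γ.subtype).codRestrict (image hΓ) fun z => ⟨z.1, z.2, rfl⟩

omit hΓ in
/-- Evaluation of a polynomial with coefficients in the graph, read in `L`. -/
def evalFst (Γ : Subring (L × k)) (a : L) : Polynomial Γ →+* L :=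
  eval₂RingHom ((RingHom.fst L k).comp Γ.subtype) a

/-- The obstruction to extending to `a`: a polynomial vanishing at `a` with constant reduction. -/
def Bad (a : L) (n : ℕ) : Prop :=
  ∃ P : Polynomial Γ, P.natDegree ≤ n ∧ evalFst Γ a P = 0 ∧ P.map (toImage hΓ) = 1

theorem mem_or_bad [IsAlgClosed k] (a : L) : (∃ c, (a, c) ∈ Γ) ∨ ∃ n, Bad hΓ a n := by
  let σ := toImage hΓ
  have hσ : Function.Surjective (mapRingHom σ) := by
    refine map_surjective σ fun y => ?_
    obtain ⟨z, hz, hzy⟩ := y.2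
    exact ⟨⟨z, hz⟩, Subtype.ext hzy⟩
  let I := (RingHom.ker (evalFst Γ a)).map (mapRingHom σ)
  by_cases htop : I = ⊤
  · obtain ⟨P, hP, hP1⟩ := (Ideal.mem_map_iff_of_surjective _ hσ).mp
      (show (1 : (image hΓ)[X]) ∈ I from htop ▸ Submodule.mem_top)
    exact Or.inr ⟨_, P, le_rfl, hP, by simpa [σ] using hP1⟩
  obtain ⟨g, hg⟩ := (IsPrincipalIdealRing.principal I).principal
  obtain ⟨c, hc⟩ : ∃ c : k, Polynomial.aeval c g = 0 := by
    by_cases h0 : g = 0
    · exact ⟨0, by simp [h0]⟩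
    refine IsAlgClosed.exists_aeval_eq_zero k g fun hdeg => htop ?_
    rw [hg, Ideal.submodule_span_eq, Ideal.span_singleton_eq_top]
    exact isUnit_iff_degree_eq_zero.mpr hdeg
  let e : Polynomial Γ →+* L × k := eval₂RingHom Γ.subtype (a, c)
  have he₁ : ∀ P, (e P).1 = evalFst Γ a P := by
    intro P
    change (RingHom.fst L k) (eval₂ Γ.subtype (a, c) P) = _
    rw [hom_eval₂]; rfl
  have he₂ : ∀ P, (e P).2 = Polynomial.aeval c (P.map σ) := by
    intro P
    change (RingHom.snd L k) (eval₂ Γ.subtype (a, c) P) = _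
    rw [hom_eval₂, aeval_def, eval₂_map]; rfl
  have hgraph : IsGraph e.range := by
    rintro z ⟨P, rfl⟩ hz
    have hmem : P.map σ ∈ I :=
      Ideal.mem_map_of_mem (mapRingHom σ) (by rw [RingHom.mem_ker, ← he₁, hz])
    rw [hg, Ideal.submodule_span_eq, Ideal.mem_span_singleton] at hmem
    obtain ⟨b, hb⟩ := hmem
    rw [he₂, hb, map_mul, hc, zero_mul]
  have hle : Γ ≤ e.range := fun z hz => ⟨C ⟨z, hz⟩, by simp [e]⟩
  exact Or.inl ⟨c, hΓ.le_of_ge hgraph hle ⟨X, by simp [e]⟩⟩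

theorem Bad.pos {a : L} {n : ℕ} (h : Bad hΓ a n) : 0 < n := by
  by_contra hn
  obtain ⟨P, hd, hev, hmap⟩ := h
  obtain ⟨b, rfl⟩ := natDegree_eq_zero.mp (show P.natDegree = 0 by omega)
  have h1 : toImage hΓ b = 1 := by
    rw [map_C] at hmap
    exact C_injective (hmap.trans C_1.symm)
  have h2 : (b : L × k).2 = 0 := hΓ.prop _ b.2 (by simpa [evalFst] using hev)
  exact one_ne_zero ((congrArg Subtype.val h1).symm.trans h2)

theorem not_bad_both {a : L} (ha : a ≠ 0) {n m : ℕ} (hn : Bad hΓ a n)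
    (hm : Bad hΓ a⁻¹ m) (hnm : n ≤ m) (hmin : ∀ j < m, ¬ Bad hΓ a⁻¹ j) : False := by
  classical
  obtain ⟨P, hPd, hPev, hPmap⟩ := hn
  obtain ⟨Q, hQd, hQev, hQmap⟩ := hm
  let σ := toImage hΓ
  let b := P.coeff 0
  have hb : σ b = 1 := by rw [← coeff_map, hPmap, coeff_one_zero]
  have hb2 : (b : L × k).2 = 1 := congrArg Subtype.val hb
  have hbmem := inv_mem hΓ (r := (b : L × k).1) (c := (b : L × k).2) b.2 (by rw [hb2]; exact one_ne_zero)
  have hb1 : (b : L × k).1 ≠ 0 := fun h => one_ne_zero (hb2.symm.trans (hΓ.prop _ b.2 h))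
  have hbinv : (⟨_, hbmem⟩ : Γ) * b = 1 := by
    apply Subtype.ext
    exact Prod.ext (inv_mul_cancel₀ hb1) (by simp [hb2])
  let M := C (⟨_, hbmem⟩ : Γ) * P.reverse
  have hb0 : b ≠ 0 := fun h => hb1 (by simp [h])
  have htd : P.natTrailingDegree = 0 := Nat.le_zero.mp (natTrailingDegree_le_of_ne_zero hb0)
  have hRd : P.reverse.natDegree = P.natDegree := by
    rw [reverse_natDegree, htd, Nat.sub_zero]
  have hMc : M.coeff P.natDegree = 1 := by
    rw [coeff_C_mul, coeff_reverse, revAt_le le_rfl, Nat.sub_self]; exact hbinv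
  have hMd : M.natDegree ≤ P.natDegree := (natDegree_C_mul_le _ _).trans hRd.le
  have hM : M.Monic := monic_of_natDegree_le_of_coeff_eq_one _ hMd hMc
  have hMev : evalFst Γ a⁻¹ M = 0 := by
    have : Invertible a := invertibleOfNonzero ha
    have h := (eval₂_reverse_eq_zero_iff ((RingHom.fst L k).comp Γ.subtype) a P).mpr hPev
    rw [invOf_eq_inv] at h
    rw [map_mul]
    exact mul_eq_zero_of_right _ h
  have hMdeg : M.natDegree = P.natDegree :=
    le_antisymm hMd (le_natDegree_of_ne_zero (by rw [hMc]; exact one_ne_zero))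
  have hPpos : 0 < P.natDegree :=
    Bad.pos hΓ (a := a) ⟨P, le_rfl, hPev, hPmap⟩
  let R := Q %ₘ M
  have hM1 : M ≠ 1 := fun h => by simp [h] at hMdeg; omega
  have hRev : evalFst Γ a⁻¹ R = 0 := by
    have := congrArg (evalFst Γ a⁻¹) (modByMonic_add_div Q M)
    rw [map_add, map_mul, hMev, zero_mul, add_zero] at this
    exact this.trans hQev
  have hRmap : R.map σ = 1 := by
    rw [map_modByMonic σ hM, hQmap]
    refine (modByMonic_eq_self_iff (hM.map σ)).mpr ?_
    rw [degree_one, hM.degree_map σ, degree_eq_natDegree hM.ne_zero, hMdeg]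
    exact_mod_cast hPpos
  have hRd' : R.natDegree < M.natDegree := natDegree_modByMonic_lt Q hM hM1
  exact hmin R.natDegree (by omega) ⟨R, le_rfl, hRev, hRmap⟩

theorem mem_or_inv_mem [IsAlgClosed k] (a : L) :
    a ∈ Γ.map (RingHom.fst L k) ∨ a⁻¹ ∈ Γ.map (RingHom.fst L k) := by
  classical
  by_cases ha : a = 0
  · exact Or.inl (ha ▸ zero_mem _)
  rcases mem_or_bad hΓ a with ⟨c, hc⟩ | h
  · exact Or.inl ⟨_, hc, rfl⟩
  rcases mem_or_bad hΓ a⁻¹ with ⟨c, hc⟩ | h'
  · exact Or.inr ⟨_, hc, rfl⟩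
  exfalso
  rcases le_total (Nat.find h) (Nat.find h') with hle | hle
  · exact not_bad_both hΓ ha (Nat.find_spec h) (Nat.find_spec h') hle fun j hj => Nat.find_min h' hj
  · refine not_bad_both hΓ (inv_ne_zero ha) (Nat.find_spec h') ?_ hle
      (fun j hj => ?_)
    · rw [inv_inv]; exact Nat.find_spec h
    · rw [inv_inv]; exact Nat.find_min h hj

end FermatLib.AV.Tors.Spec

namespace FermatLib.AV.Tors

open Spec

/-- A homomorphism from a subring of a field into an algebraically closed field extends to a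
valuation ring, its kernel being the maximal ideal. -/
theorem exists_specialization {L k : Type u} [Field L] [Field k] [IsAlgClosed k]
    (R : Subring L) (φ : R →+* k) :
    ∃ (V : ValuationSubring L) (hV : R ≤ V.toSubring) (ψ : V →+* k),
      (∀ r : R, ψ ⟨r, hV r.2⟩ = φ r) ∧ RingHom.ker ψ = IsLocalRing.maximalIdeal V := by
  classical
  let Γ₀ : Subring (L × k) := (R.subtype.prod φ).range
  have h₀ : IsGraph Γ₀ := by
    rintro z ⟨r, rfl⟩ hr
    simp only [RingHom.prod_apply, Subring.coe_subtype] at hr ⊢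
    rw [show r = 0 from Subtype.ext hr, map_zero]
  obtain ⟨Γ, hle, hmax⟩ := zorn_le_nonempty₀ {Γ : Subring (L × k) | IsGraph Γ} (fun c hcs hc Δ hΔ =>
    ⟨sSup c, fun z hz h => by
      obtain ⟨Δ', hΔ', hz'⟩ := (Subring.mem_sSup_of_directedOn ⟨Δ, hΔ⟩ hc.directedOn).mp hz
      exact hcs hΔ' z hz' h, fun Δ' hΔ' => le_sSup hΔ'⟩) Γ₀ h₀
  have hΓ : Maximal IsGraph Γ := hmax
  let V : ValuationSubring L :=
    { Γ.map (RingHom.fst L k) with mem_or_inv_mem' := mem_or_inv_mem hΓ }
  let f : Γ →+* V := ((RingHom.fst L k).comp Γ.subtype).codRestrict V fun z => ⟨z.1, z.2, rfl⟩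
  have hf : Function.Bijective f :=
    ⟨fun z w e => Subtype.ext (hΓ.prop.eq z.2 w.2 (congrArg Subtype.val e)),
      fun v => by obtain ⟨z, hz, hzv⟩ := v.2; exact ⟨⟨z, hz⟩, Subtype.ext hzv⟩⟩
  let e : Γ ≃+* V := RingEquiv.ofBijective f hf
  let ψ : V →+* k := ((RingHom.snd L k).comp Γ.subtype).comp e.symm.toRingHom
  have hR : R ≤ V.toSubring := fun r hr => ⟨_, hle ⟨⟨r, hr⟩, rfl⟩, rfl⟩
  refine ⟨V, hR, ψ, fun r => ?_, ?_⟩
  · have : e.symm ⟨r, hR r.2⟩ = ⟨_, hle ⟨r, rfl⟩⟩ := e.symm_apply_eq.mpr (Subtype.ext rfl)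
    simp [ψ, this]
  · ext v
    obtain ⟨z, rfl⟩ := e.surjective v
    simp only [RingHom.mem_ker, IsLocalRing.mem_maximalIdeal, mem_nonunits_iff, ψ,
      RingHom.comp_apply, RingEquiv.toRingHom_eq_coe, RingEquiv.coe_toRingHom,
      RingEquiv.symm_apply_apply, Subring.coe_subtype, RingHom.coe_snd]
    constructor
    · intro hz hu
      exact (hu.map ψ).ne_zero (by simpa [ψ] using hz)
    · intro hu
      by_contra hz
      apply hu
      refine (IsUnit.of_mul_eq_one ⟨_, inv_mem hΓ (r := (z : L × k).1) (c := (z : L × k).2) z.2 hz⟩ ?_).map e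
      exact Subtype.ext (Prod.ext (mul_inv_cancel₀ fun h => hz (hΓ.prop _ z.2 h))
        (mul_inv_cancel₀ hz))

end FermatLib.AV.Tors
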