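import Mathlib
import Fermat.Agent.AV.Jac.ChartsAlg

/-!
# Tensor products over an algebraically closed field
-/

set_option autoImplicit false
set_option linter.style.haveILetI false

noncomputable section

universe u

open scoped TensorProduct nonZeroDivisors

namespace FermatLib.AV.Tors

variable {K : Type u} [Field K] [IsAlgClosed K]

/-- Over an algebraically closed field, a tensor product of domains is a domain. -/
theorem isDomain_tensorProduct (E L : Type u) [CommRing E] [IsDomain E] [Algebra K E]
    [CommRing L] [IsDomain L] [Algebra K L] : IsDomain (E ⊗[K] L) := by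
  classical
  let Q := FractionRing L
  haveI : Nontrivial (E ⊗[K] L) :=
    (Algebra.TensorProduct.includeLeft_injective (S := K) (A := E) (B := L)
      (algebraMap K L).injective).nontrivial
  haveI : NoZeroDivisors (E ⊗[K] L) := by
    refine ⟨fun {f g} hfg => ?_⟩
    obtain ⟨sf, hsf⟩ := TensorProduct.exists_finset f
    obtain ⟨sg, hsg⟩ := TensorProduct.exists_finset g
    let E' : Subalgebra K E := Algebra.adjoin K (((sf ∪ sg).image Prod.fst : Finset E) : Set E)
    haveI : Algebra.FiniteType K E' :=
      (Subalgebra.fg_iff_finiteType _).mp (Subalgebra.fg_adjoin_finset _)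
    let i : E' ⊗[K] L →ₐ[K] E ⊗[K] L := Algebra.TensorProduct.map E'.val (AlgHom.id K L)
    let j : E' ⊗[K] L →ₐ[K] Q ⊗[K] E' := (Algebra.TensorProduct.comm K E' Q).toAlgHom.comp
      (Algebra.TensorProduct.map (AlgHom.id K E') (IsScalarTower.toAlgHom K L Q))
    have hi : Function.Injective i := by
      have := Module.Flat.rTensor_preserves_injective_linearMap (M := L) E'.val.toLinearMap
        Subtype.val_injective
      exact this
    have hj : Function.Injective j := by
      have := Module.Flat.lTensor_preserves_injective_linearMap (M := E')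
        (IsScalarTower.toAlgHom K L Q).toLinearMap (IsFractionRing.injective L Q)
      exact (Algebra.TensorProduct.comm K E' Q).injective.comp this
    haveI : IsDomain (Q ⊗[K] E') := FermatLib.AV.ChartsAlg.tensor_isDomain E' Q
    haveI : IsDomain (E' ⊗[K] L) := hj.isDomain j.toRingHom
    have hmem : ∀ s : Finset (E × L), s ⊆ sf ∪ sg → (∑ p ∈ s, p.1 ⊗ₜ[K] p.2) ∈ i.range := by
      intro s hs
      refine Subalgebra.sum_mem _ fun p hp => ?_
      exact ⟨(⟨p.1, Algebra.subset_adjoin
        (Finset.mem_coe.mpr (Finset.mem_image_of_mem _ (hs hp)))⟩ : E') ⊗ₜ[K] p.2,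
          by simp [i]⟩
    obtain ⟨f', hf'⟩ := hsf ▸ hmem sf Finset.subset_union_left
    obtain ⟨g', hg'⟩ := hsg ▸ hmem sg Finset.subset_union_right
    have : f' * g' = 0 := hi (by
      rw [map_mul, map_zero]
      exact (congrArg₂ (· * ·) hf' hg').trans hfg)
    rcases mul_eq_zero.mp this with h | h
    · exact Or.inl (hf'.symm.trans (by simp [h]))
    · exact Or.inr (hg'.symm.trans (by simp [h]))
  exact NoZeroDivisors.to_isDomain _

attribute [local instance] MvPolynomial.algebraMvPolynomial in
omit [IsAlgClosed K] in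
/-- Rational functions with constants extended: a localisation of a polynomial ring. -/
theorem isIntegrallyClosed_fractionRing_tensor (σ : Type u) (L : Type u) [Field L] [Algebra K L]
    [IsDomain (FractionRing (MvPolynomial σ K) ⊗[K] L)] :
    IsIntegrallyClosed (FractionRing (MvPolynomial σ K) ⊗[K] L) := by
  let P := MvPolynomial σ K
  let P' := MvPolynomial σ L
  let E := FractionRing P
  haveI : IsLocalization (Algebra.algebraMapSubmonoid P' P⁰) (P' ⊗[P] E) :=
    IsLocalization.tensor _ P⁰
  have h₀ : Algebra.algebraMapSubmonoid P' P⁰ ≤ P'⁰ := by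
    rintro _ ⟨x, hx, rfl⟩
    exact mem_nonZeroDivisors_of_ne_zero ((map_ne_zero_iff _
      (MvPolynomial.map_injective _ (algebraMap K L).injective)).mpr (nonZeroDivisors.ne_zero hx))
  haveI : IsDomain (P' ⊗[P] E) := IsLocalization.isDomain_of_le_nonZeroDivisors (P' ⊗[P] E) h₀
  haveI : IsIntegrallyClosed (P' ⊗[P] E) :=
    isIntegrallyClosed_of_isLocalization (P' ⊗[P] E) (Algebra.algebraMapSubmonoid P' P⁰) h₀
  let e : P' ⊗[P] E ≃ₐ[L] L ⊗[K] E := Algebra.IsPushout.cancelBaseChangeAlg K L P P' E
  exact IsIntegrallyClosed.of_equiv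
    (e.toRingEquiv.trans (Algebra.TensorProduct.comm K L E).toRingEquiv)

omit [IsAlgClosed K] in
/-- A separable extension of an integrally closed base stays integrally closed. -/
theorem isIntegrallyClosed_of_isSeparable {E F D : Type u} [Field E] [Field F] [Algebra E F]
    [FiniteDimensional E F] [Algebra.IsSeparable E F] [CommRing D] [IsDomain D]
    [IsIntegrallyClosed D] [Algebra E D] [IsDomain (D ⊗[E] F)] :
    IsIntegrallyClosed (D ⊗[E] F) := by
  let S := D ⊗[E] F
  let Q := FractionRing D
  haveI : Algebra.FormallyEtale E F := Algebra.FormallyEtale.of_isSeparable E F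
  haveI : Algebra.FiniteType E F := inferInstance
  haveI : Algebra.FinitePresentation E F := Algebra.FinitePresentation.of_finiteType.mp ‹_›
  haveI : Algebra.Etale E F := {}
  haveI : Algebra.Smooth D S := inferInstance
  haveI : Module.Finite D S := inferInstance
  haveI : Algebra.IsIntegral D S := Algebra.IsIntegral.of_finite _ _
  have hinj : Function.Injective (algebraMap D S) :=
    Algebra.TensorProduct.includeLeft_injective (S := E) (A := D) (B := F)
      (algebraMap E F).injective
  haveI : IsLocalization (Algebra.algebraMapSubmonoid S D⁰) (S ⊗[D] Q) :=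
    IsLocalization.tensor _ D⁰
  haveI : IsFractionRing S (S ⊗[D] Q) := by
    refine IsLocalization.of_le_of_exists_dvd (Algebra.algebraMapSubmonoid S D⁰) S⁰ ?_ ?_
    · rintro _ ⟨x, hx, rfl⟩
      exact mem_nonZeroDivisors_of_ne_zero
        ((map_ne_zero_iff _ hinj).mpr (nonZeroDivisors.ne_zero hx))
    · intro s hs
      obtain ⟨d, hd, hsd⟩ := (Algebra.IsIntegral.isIntegral (R := D) s).isAlgebraic
        |>.exists_nonzero_dvd hs
      exact ⟨algebraMap D S d, ⟨d, mem_nonZeroDivisors_of_ne_zero hd, rfl⟩, hsd⟩
  refine (isIntegrallyClosed_iff (S ⊗[D] Q)).mpr fun {x} hx => ?_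
  obtain ⟨y, hy⟩ := (TensorProduct.toIntegralClosure_bijective_of_smooth (R := D) (S := S)
    (B := Q)).2 ⟨x, hx⟩
  have hy' : (TensorProduct.toIntegralClosure D S Q y : S ⊗[D] Q) = x := congrArg Subtype.val hy
  suffices h : ∀ y, (TensorProduct.toIntegralClosure D S Q y : S ⊗[D] Q) ∈
      (Algebra.ofId S (S ⊗[D] Q)).range by
    obtain ⟨z, hz⟩ := h y
    exact ⟨z, hz.trans hy'⟩
  intro y
  induction y using TensorProduct.induction_on with
  | zero => simp
  | add a b ha hb => rw [map_add]; exact add_mem ha hb
  | tmul s q =>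
    obtain ⟨d, hd⟩ : (q : Q) ∈ (⊥ : Subalgebra D Q) := IsIntegrallyClosed.integralClosure_eq_bot D Q ▸ q.2
    refine ⟨s * algebraMap D S d, ?_⟩
    rw [show (TensorProduct.toIntegralClosure D S Q (s ⊗ₜ[D] q) : S ⊗[D] Q) = s ⊗ₜ[D] (q : Q)
      from rfl, ← hd]
    change (algebraMap S (S ⊗[D] Q)) (s * algebraMap D S d) = s ⊗ₜ[D] algebraMap D Q d
    rw [Algebra.TensorProduct.algebraMap_apply, Algebra.algebraMap_self, RingHom.id_apply,
      Algebra.algebraMap_eq_smul_one (A := Q), TensorProduct.tmul_smul, TensorProduct.smul_tmul',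
      Algebra.smul_def, mul_comm]

/-- The tensor product of a function field of one variable and a field is integrally closed. -/
theorem isIntegrallyClosed_tensorProduct (F L : Type u) [Field F] [Algebra K F]
    [Field L] [Algebra K L] {x : F} (hx : Transcendental K x)
    [FiniteDimensional (IntermediateField.adjoin K {x}) F] :
    IsIntegrallyClosed (F ⊗[K] L) := by
  haveI : Algebra.EssFiniteType K (IntermediateField.adjoin K {x}) :=
    IntermediateField.essFiniteType_iff.mpr (IntermediateField.fg_adjoin_of_finite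
      (Set.finite_singleton x))
  haveI : Algebra.EssFiniteType (IntermediateField.adjoin K {x}) F := inferInstance
  haveI : Algebra.EssFiniteType K F :=
    Algebra.EssFiniteType.comp K (IntermediateField.adjoin K {x}) F
  obtain ⟨s, hs, hsep⟩ := exists_isTranscendenceBasis_and_isSeparable_of_perfectField K F
  let E := FractionRing (MvPolynomial (↥s) K)
  let I := IntermediateField.adjoin K (Set.range (Subtype.val : s → F))
  let e : E ≃ₐ[K] I := hs.1.aevalEquivField
  algebraize [(algebraMap I F).comp e.toRingHom]
  haveI : IsScalarTower K E F := IsScalarTower.of_algebraMap_eq fun a => by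
    simp [RingHom.algebraMap_toAlgebra]
  haveI : Algebra.IsSeparable E F := by
    have hI : IntermediateField.adjoin K (s : Set F) = I := by
      simp only [I, Subtype.range_coe_subtype, Finset.setOfPred_mem]
      try rfl
    haveI : Algebra.IsSeparable I F := hI ▸ hsep
    exact Algebra.IsSeparable.of_equiv_equiv e.symm.toRingEquiv (RingEquiv.refl F)
      (by ext a; simp [RingHom.algebraMap_toAlgebra])
  haveI : Algebra.EssFiniteType E F := Algebra.EssFiniteType.of_comp K E F
  haveI : FiniteDimensional E F := Algebra.finite_of_essFiniteType_of_isAlgebraic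
  haveI : IsDomain (E ⊗[K] L) := isDomain_tensorProduct E L
  haveI : IsIntegrallyClosed (E ⊗[K] L) := isIntegrallyClosed_fractionRing_tensor _ L
  let e' : (E ⊗[K] L) ⊗[E] F ≃+* F ⊗[K] L :=
    (Algebra.TensorProduct.comm E (E ⊗[K] L) F).toRingEquiv.trans
      (Algebra.TensorProduct.cancelBaseChange K E F F L).toRingEquiv
  haveI : IsDomain (F ⊗[K] L) := isDomain_tensorProduct F L
  haveI : IsDomain ((E ⊗[K] L) ⊗[E] F) := e'.toMulEquiv.isDomain _
  haveI := isIntegrallyClosed_of_isSeparable (E := E) (F := F) (D := E ⊗[K] L)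
  exact IsIntegrallyClosed.of_equiv (R := (E ⊗[K] L) ⊗[E] F) (S := F ⊗[K] L) e'

end FermatLib.AV.Tors
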